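/-
P-MW row 713 (helper83), MW-A1-REPR, part 2: the algebraic part (Riemann's inequality).
For a function field with a Riemann package and a place `v∞`:
* every class of degree zero has a representative which is effective away from `v∞`;
* a divisor of degree zero, effective away from `v∞` and not supported on `v∞`, is supported on
  the zeros and poles of a nonconstant function.
-/
import Fermat.Agent.H27.ESD.Interfaces
import Fermat.Agent.H23.PlaceBasic

set_option autoImplicit false

noncomputable section

open AlgebraicCurve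

namespace Fermat.Agent.H83.MWDiv

open Fermat.Agent.H27.ESD

variable {K F : Type} [Field K] [Field F] [Algebra K F] {g : ℕ}

/-- the degree when all places have degree one -/
theorem degree_eq_sum (hR : RiemannPackage K F g) (D : Divisor K F) :
    Divisor.degree D = ∑ v ∈ D.support, D v := by
  unfold Divisor.degree
  rw [Finsupp.liftAddHom_apply, Finsupp.sum]
  refine Finset.sum_congr rfl fun v _ => ?_
  simp [hR.deg_one v]

/-- Riemann's inequality gives a nonzero function. -/
theorem exists_ne_zero_mem_riemannRochSpace (hR : RiemannPackage K F g) (D : Divisor K F)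
    (hD : (g : ℤ) ≤ Divisor.degree D) :
    ∃ f : F, f ≠ 0 ∧ ∀ v : Place K F, -D v ≤ v.ord f := by
  have h1 := hR.riemann D
  have h2 : 0 < Module.finrank K (riemannRochSpace D) := by
    have : (0 : ℤ) < (Module.finrank K (riemannRochSpace D) : ℤ) := by omega
    exact_mod_cast this
  haveI := hR.finite D
  obtain ⟨f, hf⟩ := Module.finrank_pos_iff_exists_ne_zero.mp h2
  have hf0 : (f : F) ≠ 0 := fun h => hf (Subtype.ext h)
  refine ⟨f, hf0, fun v => ?_⟩
  exact (mem_riemannRochSpace_iff.mp f.2 v).resolve_left hf0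

/-- **Effective representative.**  Every divisor of degree zero is linearly equivalent to a
divisor which is effective away from `v∞`. -/
theorem exists_effective_away (hR : RiemannPackage K F g) (vinf : Place K F)
    (D₀ : Divisor.degZero (K := K) (F := F)) :
    ∃ D : Divisor.degZero (K := K) (F := F), Pic0.mk D = Pic0.mk D₀ ∧
      ∀ v : Place K F, v ≠ vinf → 0 ≤ (D : Divisor K F) v := by
  classical
  have hD₀ : Divisor.degree (D₀ : Divisor K F) = 0 := D₀.2
  set D₁ : Divisor K F := (D₀ : Divisor K F) + Finsupp.single vinf (g : ℤ) with hD₁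
  have hdeg : Divisor.degree D₁ = g := by
    rw [hD₁, map_add, hD₀, Divisor.degree_single, hR.deg_one vinf]
    simp
  obtain ⟨f, hf0, hf⟩ := exists_ne_zero_mem_riemannRochSpace hR D₁ (by rw [hdeg])
  haveI := hR.principal
  obtain ⟨Df, hDf, hDfdeg⟩ := HasPrincipalDivisors.exists_divisor (K := K) f hf0
  have hDfmem : Df ∈ Divisor.degZero (K := K) (F := F) := hDfdeg
  refine ⟨D₀ + ⟨Df, hDfmem⟩, ?_, ?_⟩
  · rw [Pic0.mk_add]
    have h0 : Pic0.mk (⟨Df, hDfmem⟩ : Divisor.degZero (K := K) (F := F)) = 0 := by
      unfold Pic0.mk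
      rw [QuotientAddGroup.eq_zero_iff, AddSubgroup.mem_addSubgroupOf]
      exact ⟨f, hf0, hDf⟩
    rw [h0, add_zero]
  · intro v hv
    have h1 := hf v
    have h2 : D₁ v = (D₀ : Divisor K F) v := by
      rw [hD₁, Finsupp.add_apply, Finsupp.single_eq_of_ne hv, add_zero]
    show 0 ≤ ((D₀ : Divisor K F) + Df) v
    rw [Finsupp.add_apply, hDf v]
    rw [h2] at h1
    omega

/-- A function with nonnegative order away from `v∞` and a zero somewhere has a pole at `v∞`. -/
theorem ord_neg_of_zero (hR : RiemannPackage K F g) (vinf v₀ : Place K F) {y : F} (hy : y ≠ 0)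
    (hnn : ∀ v : Place K F, v ≠ vinf → 0 ≤ v.ord y) (hv₀ : v₀ ≠ vinf) (h0 : 0 < v₀.ord y) :
    vinf.ord y < 0 := by
  classical
  haveI := hR.principal
  obtain ⟨Dy, hDy, hDydeg⟩ := HasPrincipalDivisors.exists_divisor (K := K) y hy
  rw [degree_eq_sum hR] at hDydeg
  by_contra hcon
  push Not at hcon
  have hall : ∀ v ∈ Dy.support, 0 ≤ Dy v := by
    intro v _
    rw [hDy v]
    by_cases hv : v = vinf
    · rw [hv]
      exact hcon
    · exact hnn v hv
  have hv₀mem : v₀ ∈ Dy.support := by
    rw [Finsupp.mem_support_iff, hDy v₀]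
    omega
  have h1 : Dy v₀ ≤ ∑ v ∈ Dy.support, Dy v := Finset.single_le_sum hall hv₀mem
  rw [hDydeg, hDy v₀] at h1
  omega

/-- **The function `y`.**  A divisor which is effective away from `v∞` and is not supported on
`v∞` is supported on the zeros and poles of a function with a pole at `v∞`. -/
theorem exists_function_support (hR : RiemannPackage K F g) (vinf : Place K F)
    (D : Divisor K F) (v₀ : Place K F) (hv₀ : v₀ ≠ vinf) (hDv₀ : D v₀ ≠ 0) :
    ∃ y : F, y ≠ 0 ∧ vinf.ord y < 0 ∧ ∀ v : Place K F, v.ord y = 0 → D v = 0 := by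
  classical
  set S : Finset (Place K F) := D.support.erase vinf with hS
  set D₂ : Divisor K F :=
    Finsupp.single vinf ((S.card + g : ℕ) : ℤ) - ∑ v ∈ S, Finsupp.single v (1 : ℤ) with hD₂
  have hdeg : Divisor.degree D₂ = g := by
    rw [hD₂, map_sub, map_sum, Divisor.degree_single, hR.deg_one vinf]
    have : ∀ v ∈ S, Divisor.degree (Finsupp.single v (1 : ℤ)) = 1 := by
      intro v _
      rw [Divisor.degree_single, hR.deg_one v]
      simp
    rw [Finset.sum_congr rfl this]
    simp
  obtain ⟨y, hy0, hy⟩ := exists_ne_zero_mem_riemannRochSpace hR D₂ (by rw [hdeg])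
  have hsum : ∀ v : Place K F, (∑ u ∈ S, Finsupp.single u (1 : ℤ)) v = if v ∈ S then 1 else 0 := by
    intro v
    rw [Finsupp.finsetSum_apply]
    simp only [Finsupp.single_apply]
    rw [Finset.sum_ite_eq' S v]
  have hD₂S : ∀ v ∈ S, D₂ v = -1 := by
    intro v hv
    have hne : v ≠ vinf := Finset.ne_of_mem_erase hv
    rw [hD₂, Finsupp.sub_apply, Finsupp.single_eq_of_ne hne, hsum, if_pos hv]
    simp
  have hD₂out : ∀ v : Place K F, v ∉ S → v ≠ vinf → D₂ v = 0 := by
    intro v hv hne
    rw [hD₂, Finsupp.sub_apply, Finsupp.single_eq_of_ne hne, hsum, if_neg hv]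
    simp
  have hv₀S : v₀ ∈ S := by
    rw [hS, Finset.mem_erase]
    exact ⟨hv₀, Finsupp.mem_support_iff.mpr hDv₀⟩
  have hnn : ∀ v : Place K F, v ≠ vinf → 0 ≤ v.ord y := by
    intro v hne
    have h1 := hy v
    by_cases hv : v ∈ S
    · rw [hD₂S v hv] at h1
      omega
    · rw [hD₂out v hv hne] at h1
      omega
  have hpos : 0 < v₀.ord y := by
    have h1 := hy v₀
    rw [hD₂S v₀ hv₀S] at h1
    omega
  have hinf : vinf.ord y < 0 := ord_neg_of_zero hR vinf v₀ hy0 hnn hv₀ hpos
  refine ⟨y, hy0, hinf, fun v hv => ?_⟩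
  have hne : v ≠ vinf := by
    rintro rfl
    omega
  have hvS : v ∉ S := by
    intro hvS
    have h1 := hy v
    rw [hD₂S v hvS] at h1
    omega
  rw [hS, Finset.mem_erase, not_and] at hvS
  have := hvS hne
  rw [Finsupp.mem_support_iff, not_not] at this
  exact this

/-- A function with a zero or a pole is transcendental over the algebraically closed constant
field. -/
theorem transcendental_of_ord_ne_zero [IsAlgClosed K] {y : F} (v : Place K F)
    (hv : v.ord y ≠ 0) : Transcendental K y := by
  intro halg
  have hint : IsIntegral K y := halg.isIntegral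
  have hdeg : (minpoly K y).degree = 1 :=
    IsAlgClosed.degree_eq_one_of_irreducible K (minpoly.irreducible hint)
  obtain ⟨c, hc⟩ := minpoly.mem_range_of_degree_eq_one K y hdeg
  apply hv
  rw [← hc]
  exact Fermat.Agent.H23.ord_algebraMap v c

end Fermat.Agent.H83.MWDiv
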