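/-
P-MW row 713 (helper83), MW-A1-REPR, part 1: the `j`-function has a pole at the cusp `∞` and no
pole at the points of `ℍ`; hence the place of the cusp `∞` is not a point place.
-/
import Fermat.Agent.H84.MWDiv.Interfaces
import Fermat.Agent.H23.EsA.Unconditional
import Fermat.Agent.H13.EsACoreC
import Fermat.Agent.H41.CuspDatum

set_option autoImplicit false

noncomputable section

open AlgebraicCurve UpperHalfPlane
open scoped MatrixGroups Manifold Topology

namespace Fermat.Agent.H83.MWDiv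

open Fermat.Agent.H23.EsA

variable (N : ℕ) [NeZero N]

/-- `j ≠ 0` in the function field. -/
theorem jC_one_ne_zero : jC N 1 (one_dvd N) ≠ 0 := by
  intro h
  have h1 := (degreeCStatement N).1
  rw [h] at h1
  exact h1 (isAlgebraic_zero)

/-- the representative of `j` -/
theorem rep_jC_one : Rep N Fermat.Agent.H23.jfun (jC N 1 (one_dvd N)) := by
  have h1 := (Fermat.Agent.H13.esaCoreC N).1 1 inferInstance (one_dvd N)
  have h2 : (fun z => Fermat.Agent.H23.jfun (Fermat.Agent.H23.scaleH 1 z)) =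
      Fermat.Agent.H23.jfun := by
    funext z
    rw [Fermat.Agent.H41.CoreData.scaleH_one]
  rw [h2] at h1
  exact h1

/-- `j` has a pole at every cusp place of the cusp `∞`. -/
theorem ord_jC_neg_of_isCuspPlace {v : Place ℂ ↥(FC N)} {w : ℕ} (h : IsCuspPlace N 1 v w) :
    v.ord (jC N 1 (one_dvd N)) < 0 := by
  obtain ⟨hw, -, hord⟩ := h
  haveI : NeZero w := ⟨hw.ne'⟩
  have h1 := hord (jC N 1 (one_dvd N)) _ (jC_one_ne_zero N) (rep_jC_one N)
  have h2 : (fun z : ℍ => Fermat.Agent.H23.jfun ((1 : SL(2, ℤ)) • z)) =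
      Fermat.Agent.H23.jfun := by
    funext z
    rw [one_smul]
  rw [h2] at h1
  have hev : Function.Periodic.cuspFunction (w : ℝ) (Fermat.Agent.H23.jfun ∘ ofComplex)
      =ᶠ[𝓝[≠] (0 : ℂ)] fun t => Fermat.Agent.H23.jfun (Fermat.Agent.H41.cuspPt w t) := by
    refine eventually_nhdsWithin_of_forall fun t ht => ?_
    exact Fermat.Agent.H41.cuspFunction_eq_cuspPt w Fermat.Agent.H23.jfun ht
  have h3 : cuspOrd w Fermat.Agent.H23.jfun = ((-(w : ℤ) : ℤ) : WithTop ℤ) := by
    unfold cuspOrd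
    rw [meromorphicOrderAt_congr hev]
    exact (meromorphicOrderAt_eq_int_iff
      (Fermat.Agent.H41.CoreData.meromorphicAt_jfun_cuspPt (N := w))).mpr
      (Fermat.Agent.H41.exists_jfun_cuspPt_eq w)
  rw [h3] at h1
  have h4 : v.ord (jC N 1 (one_dvd N)) = -(w : ℤ) := by
    exact_mod_cast h1.symm
  rw [h4]
  omega

/-- `j` has no pole at a point place. -/
theorem ord_jC_nonneg_of_isPointPlace {z₀ : ℍ} {v : Place ℂ ↥(FC N)} {s : ℕ}
    (h : IsPointPlace N z₀ v s) : 0 ≤ v.ord (jC N 1 (one_dvd N)) := by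
  obtain ⟨hs, hord, -⟩ := h
  have h1 := hord (jC N 1 (one_dvd N)) _ (jC_one_ne_zero N) (rep_jC_one N)
  have hmd : MDiff Fermat.Agent.H23.jfun := (rep_jC_one N).mdifferentiable
  have han : AnalyticAt ℂ (Fermat.Agent.H23.jfun ∘ ofComplex) (z₀ : ℂ) := by
    have h2 := UpperHalfPlane.mdifferentiable_iff.mp hmd
    exact h2.analyticAt (isOpen_upperHalfPlaneSet.mem_nhds z₀.2)
  have h3 : (0 : WithTop ℤ) ≤ meromorphicOrderAt (Fermat.Agent.H23.jfun ∘ ofComplex) (z₀ : ℂ) :=
    han.meromorphicOrderAt_nonneg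
  rw [h1] at h3
  have h4 : (0 : ℤ) ≤ (s : ℤ) * v.ord (jC N 1 (one_dvd N)) := by exact_mod_cast h3
  by_contra hneg
  push Not at hneg
  have : (s : ℤ) * v.ord (jC N 1 (one_dvd N)) < 0 :=
    mul_neg_of_pos_of_neg (by exact_mod_cast hs) hneg
  omega

/-- A cusp place of the cusp `∞` is not a point place. -/
theorem ne_of_isCuspPlace_of_isPointPlace {z₀ : ℍ} {v v' : Place ℂ ↥(FC N)} {s w : ℕ}
    (hc : IsCuspPlace N 1 v w) (hp : IsPointPlace N z₀ v' s) : v' ≠ v := by
  rintro rfl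
  have h1 := ord_jC_neg_of_isCuspPlace N hc
  have h2 := ord_jC_nonneg_of_isPointPlace N hp
  omega

end Fermat.Agent.H83.MWDiv
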