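/-
P-MW row 713 (helper83), MW-A1-REPR: `representative N : RepresentativeStatement N`.

Every class of `Pic⁰(ℂ(X₀(N)))` is represented by a divisor `D` of degree zero which is
effective on the points of `ℍ` and supported on the zeros and poles of a nonconstant function
`y` over which the function field is finite.
-/
import Fermat.Agent.H83.MWDiv.ReprCusp
import Fermat.Agent.H83.MWDiv.ReprAlg
import Fermat.Agent.H58.RR.ESD
import Fermat.Agent.H54.EsC.FieldFinite

set_option autoImplicit false

noncomputable section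

open AlgebraicCurve UpperHalfPlane IntermediateField
open scoped MatrixGroups Manifold

namespace Fermat.Agent.H83.MWDiv

open Fermat.Agent.H23.EsA Fermat.Agent.H84.MWDiv

/-- **[A1-REPR]** good representatives of divisor classes. -/
theorem representative (N : ℕ) [NeZero N] : RepresentativeStatement N := by
  classical
  intro x
  obtain ⟨htr, hfin, -⟩ := degreeCStatement N
  obtain ⟨g, hR⟩ := Fermat.Agent.H58.riemannTheorem_charZero ℂ ↥(FC N) (jC N 1 (one_dvd N))
    htr hfin
  obtain ⟨vinf, w, hcusp⟩ := (placesStatement N).2.1 1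
  obtain ⟨D₀, rfl⟩ := Pic0.mk_surjective x
  obtain ⟨D, hDx, hDeff⟩ := exists_effective_away hR vinf D₀
  have hpoint : ∀ (z₀ : ℍ) (v : Place ℂ ↥(FC N)) (s : ℕ), IsPointPlace N z₀ v s →
      0 ≤ (D : Divisor ℂ ↥(FC N)) v := fun z₀ v s hp =>
    hDeff v (ne_of_isCuspPlace_of_isPointPlace N hcusp hp)
  by_cases hex : ∃ v₀ : Place ℂ ↥(FC N), v₀ ≠ vinf ∧ (D : Divisor ℂ ↥(FC N)) v₀ ≠ 0
  · obtain ⟨v₀, hv₀, hDv₀⟩ := hex
    obtain ⟨y, -, hyinf, hysupp⟩ := exists_function_support hR vinf (D : Divisor ℂ ↥(FC N)) v₀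
      hv₀ hDv₀
    have hytr : Transcendental ℂ y := transcendental_of_ord_ne_zero vinf (by omega)
    exact ⟨D, y, hDx, hpoint, hytr,
      Fermat.Agent.H54.finiteDimensional_adjoin_simple_of_transcendental hfin hytr, hysupp⟩
  · refine ⟨D, jC N 1 (one_dvd N), hDx, hpoint, htr, hfin, fun v hv => ?_⟩
    by_cases hvinf : v = vinf
    · exfalso
      have := ord_jC_neg_of_isCuspPlace N hcusp
      rw [hvinf] at hv
      omega
    · by_contra hDv
      exact hex ⟨v, hvinf, hDv⟩

end Fermat.Agent.H83.MWDiv
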